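import Fermat.Agent.S13.Asm.H11_Asm
import Fermat.Agent.S54.Frobenius

/-!
# S13 assembly, plan v2: one valuation subring per prime

`result_of_local_deliverables` : S13 from
* `StTweak P`   (package W: `V` nontrivial, finite, of cardinality `≤ p^2`),
* `StGex`       (package G: ONE valuation subring per prime suffices),
* `StL2aLocal P` (package L2: unipotent inertia for ONE `A` over `2`; implied by `StL2a P`),
* `StL2b P`     (package L2: no nonzero fixed point),
* `StLpLocal P` (package Lp: dichotomy for ONE `A` over `p`; implied by `StLpA P` and `StLp P`),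
* `StE P`       (= S05).
-/

set_option autoImplicit false
open WeierstrassCurve WeierstrassCurve.Affine WeierstrassCurve.Affine.Point

namespace Fermat.Agent.S13.Asm

variable {P : FreyPackage}

/-- Deliverable (L2a), local variant: unipotent inertia for ONE valuation subring over `2`. -/
def StL2aLocal (P : FreyPackage) : Prop :=
  ∃ A : ValuationSubring Kbar, A.LiesOverPrime 2 ∧
    ∀ σ ∈ A.inertiaSubgroupIn ℚ, ∀ x : V P, σ • (σ • x - x) = σ • x - x

/-- Deliverable (Lp) in the shape of plan v2: the dichotomy for EVERY valuation subring over `p`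
(separately for each `A`). -/
def StLpA (P : FreyPackage) : Prop :=
  ∀ N : Submodule (ZMod P.p) (V P), IsGaloisStable ℚ N → N ≠ ⊥ → N ≠ ⊤ →
    ∀ A : ValuationSubring Kbar, A.LiesOverPrime P.p →
      ((∀ σ ∈ A.inertiaSubgroupIn ℚ, ∀ x ∈ N, σ • x = x) ∨
       (∀ σ ∈ A.inertiaSubgroupIn ℚ, ∀ x : V P, σ • x - x ∈ N))

/-- Every prime has a valuation subring of `Kbar` over it (landed in `S54/Frobenius.lean`). -/
lemma h11_exists_liesOverPrime (q : ℕ) (hq : q.Prime) :
    ∃ A : ValuationSubring Kbar, A.LiesOverPrime q :=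
  Fermat.Agent.S54.exists_liesOverPrime q hq

lemma stL2aLocal_of_stL2a (h : StL2a P) : StL2aLocal P := by
  obtain ⟨A, hA⟩ := h11_exists_liesOverPrime 2 Nat.prime_two
  exact ⟨A, hA, h A hA⟩

lemma stLpLocal_of_stLpA (h : StLpA P) : StLpLocal P := by
  intro N hN h0 h1
  obtain ⟨A, hA⟩ := h11_exists_liesOverPrime P.p P.pp
  exact ⟨A, hA, h N hN h0 h1 A hA⟩

lemma stLpA_of_stLp (h : StLp P) : StLpA P := by
  intro N hN h0 h1 A hA
  rcases h N hN h0 h1 with h' | h'
  · exact Or.inl (h' A hA)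
  · exact Or.inr (h' A hA)

lemma stLpLocal_of_stLp (h : StLp P) : StLpLocal P :=
  stLpLocal_of_stLpA (stLpA_of_stLp h)

lemma stG_of_stGex (h : StGex) : StG := by
  intro H hH L hL hLH hI
  refine h H hH L hL hLH (fun q hq => ?_)
  obtain ⟨A, hA⟩ := h11_exists_liesOverPrime q hq
  exact ⟨A, hA, hI q hq A hA⟩

/-- For every prime `q ≠ p` SOME valuation subring over `q` has inertia in `H1 N ⊓ H2 N`. -/
lemma h11_exists_inertia_le_away (hT : StTweak P) (h2a : StL2aLocal P) (hE : StE P)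
    (N : Submodule (ZMod P.p) (V P)) (hN : IsGaloisStable ℚ N) (h0 : N ≠ ⊥) (h1 : N ≠ ⊤)
    (q : ℕ) (hq : q.Prime) (hqp : q ≠ P.p) :
    ∃ A : ValuationSubring Kbar, A.LiesOverPrime q ∧
      A.inertiaSubgroupIn ℚ ≤ H1 N ∧ A.inertiaSubgroupIn ℚ ≤ H2 N hN := by
  by_cases hq2 : q = 2
  · subst hq2
    obtain ⟨A, hA, hu⟩ := h2a
    exact ⟨A, hA,
      fun σ hσ => (h11_trivial_of_unipotent hT N hN h0 h1 σ (hu σ hσ)).1,
      fun σ hσ => (h11_trivial_of_unipotent hT N hN h0 h1 σ (hu σ hσ)).2⟩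
  · obtain ⟨A, hA⟩ := h11_exists_liesOverPrime q hq
    exact ⟨A, hA,
      fun σ hσ => mem_H1_of_trivial N σ (hE q hq hq2 hqp A hA σ hσ),
      fun σ hσ => mem_H2_of_trivial N hN σ (hE q hq hq2 hqp A hA σ hσ)⟩

/-- **S13 from the deliverables in their local (one valuation subring per prime) form.** -/
theorem result_of_local_deliverables (P : FreyPackage) (hT : StTweak P) (hG : StGex)
    (h2a : StL2aLocal P) (h2b : StL2b P) (hp : StLpLocal P) (hE : StE P)
    (hred : ¬ GaloisRepIsIrreducible (K := AlgebraicClosure ℚ) ℚ P.freyCurve P.p) :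
    HasGaloisStableCofixedLine (K := AlgebraicClosure ℚ) ℚ P.freyCurve P.p := by
  rw [hred_iff] at hred
  rw [goal_iff]
  have hex : ∃ N : Submodule (ZMod P.p) (V P), IsGaloisStable ℚ N ∧ N ≠ ⊥ ∧ N ≠ ⊤ := by
    by_contra hcon
    apply hred
    refine ⟨hT.1, fun N hN => ?_⟩
    by_contra h
    rw [not_or] at h
    exact hcon ⟨N, hN, h.1, h.2⟩
  obtain ⟨N, hN, h0, h1⟩ := hex
  have hfd : FiniteDimensional ℚ (levelField P) := levelField_finiteDimensional hT.2.1
  have hL1 : (levelField P).fixingSubgroup ≤ H1 N := fun σ hσ =>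
    mem_H1_of_trivial N σ (smul_eq_of_mem_fixingSubgroup σ hσ)
  have hL2 : (levelField P).fixingSubgroup ≤ H2 N hN := fun σ hσ =>
    mem_H2_of_trivial N hN σ (smul_eq_of_mem_fixingSubgroup σ hσ)
  obtain ⟨Ap, hAp, hdich⟩ := hp N hN h0 h1
  rcases hdich with hp1 | hp2
  · exfalso
    have htop : H1 N = ⊤ := by
      refine hG (H1 N) (H1_normal N hN) (levelField P) hfd hL1 ?_
      intro q hq
      by_cases hqp : q = P.p
      · subst hqp
        exact ⟨Ap, hAp, fun σ hσ => hp1 σ hσ⟩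
      · obtain ⟨A, hA, hA1, -⟩ := h11_exists_inertia_le_away hT h2a hE N hN h0 h1 q hq hqp
        exact ⟨A, hA, hA1⟩
    obtain ⟨n, hnN, hn0⟩ := Submodule.exists_mem_ne_zero_of_ne_bot h0
    refine hn0 (h2b n (fun σ => ?_))
    have : σ ∈ H1 N := by rw [htop]; exact Subgroup.mem_top σ
    exact this n hnN
  · have htop : H2 N hN = ⊤ := by
      refine hG (H2 N hN) (H2_normal N hN) (levelField P) hfd hL2 ?_
      intro q hq
      by_cases hqp : q = P.p
      · subst hqp
        exact ⟨Ap, hAp, fun σ hσ => hp2 σ hσ⟩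
      · obtain ⟨A, hA, -, hA2⟩ := h11_exists_inertia_le_away hT h2a hE N hN h0 h1 q hq hqp
        exact ⟨A, hA, hA2⟩
    refine ⟨N, hN, h0, h1, fun σ x => ?_⟩
    have : σ ∈ H2 N hN := by rw [htop]; exact Subgroup.mem_top σ
    exact this x

/-- Plan v2 shape: `StGex`, `StL2a` (all `A` over 2), `StLpA` (each `A` over `p`). -/
theorem result_of_deliverables_v2 (P : FreyPackage) (hT : StTweak P) (hG : StGex)
    (h2a : StL2a P) (h2b : StL2b P) (hp : StLpA P) (hE : StE P)
    (hred : ¬ GaloisRepIsIrreducible (K := AlgebraicClosure ℚ) ℚ P.freyCurve P.p) :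
    HasGaloisStableCofixedLine (K := AlgebraicClosure ℚ) ℚ P.freyCurve P.p :=
  result_of_local_deliverables P hT hG (stL2aLocal_of_stL2a h2a) h2b
    (stLpLocal_of_stLpA hp) hE hred

end Fermat.Agent.S13.Asm
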