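import Mathlib
import Fermat.Prelude.Def_FLTPrelim_FreyPackage
import Fermat.Prelude.Def_FLTPrelim_GaloisRep
import Fermat.Prelude.Def_FLTPrelim_Ramification
import Fermat.Prelude.Def_FLTPrelim_CofixedLine

/-!
# S13 : the five deliverables as exact Lean statements

Every package (T, G, L2, Lp) proves ONE of the propositions below.  The assembly
(`H11_Asm.lean`) proves `HasGaloisStableCofixedLine` from them.

Notation: `Kbar = AlgebraicClosure ℚ`, `Gam = Kbar ≃ₐ[ℚ] Kbar`,
`V P = E[p](Kbar)` for the Frey curve `E` of the package `P`.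
-/

set_option autoImplicit false
open WeierstrassCurve WeierstrassCurve.Affine WeierstrassCurve.Affine.Point

namespace Fermat.Agent.S13.Asm

/-- `Kbar = AlgebraicClosure ℚ`. -/
abbrev Kbar : Type := AlgebraicClosure ℚ

/-- The absolute Galois group of `ℚ`. -/
abbrev Gam : Type := Kbar ≃ₐ[ℚ] Kbar

/-- The `p`-torsion of the Frey curve over `Kbar` (a `ZMod p`-module with `Gam`-action,
instances from the prelude). -/
abbrev V (P : FreyPackage) : Type :=
  Submodule.torsionBy ℤ (P.freyCurve⁄Kbar).Point P.p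

/-- Deliverable (T), strong form: `#E[p] = p^2`. -/
def StT (P : FreyPackage) : Prop :=
  Nat.card (V P) = P.p ^ 2

/-- Deliverable (T), weak form (enough for the assembly): `E[p] ≠ 0`, finite, `#E[p] ≤ p^2`. -/
def StTweak (P : FreyPackage) : Prop :=
  Nontrivial (V P) ∧ Finite (V P) ∧ Nat.card (V P) ≤ P.p ^ 2

/-- Deliverable (G) (Minkowski): a normal subgroup of `Gam` containing the fixing subgroup of a
finite extension and the inertia subgroup of EVERY valuation subring over EVERY prime is `⊤`. -/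
def StG : Prop :=
  ∀ (H : Subgroup Gam), H.Normal →
    ∀ (L : IntermediateField ℚ Kbar), FiniteDimensional ℚ L →
      L.fixingSubgroup ≤ H →
      (∀ q : ℕ, q.Prime → ∀ A : ValuationSubring Kbar, A.LiesOverPrime q →
        A.inertiaSubgroupIn ℚ ≤ H) →
      H = ⊤

/-- Deliverable (G), stronger variant (one valuation subring per prime suffices). Implies `StG`
as soon as every prime has a valuation subring over it. Optional. -/
def StGex : Prop :=
  ∀ (H : Subgroup Gam), H.Normal →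
    ∀ (L : IntermediateField ℚ Kbar), FiniteDimensional ℚ L →
      L.fixingSubgroup ≤ H →
      (∀ q : ℕ, q.Prime → ∃ A : ValuationSubring Kbar, A.LiesOverPrime q ∧
        A.inertiaSubgroupIn ℚ ≤ H) →
      H = ⊤

/-- Deliverable (L2a): inertia at `2` is unipotent on `E[p]`: `(σ - 1)^2 = 0`. -/
def StL2a (P : FreyPackage) : Prop :=
  ∀ A : ValuationSubring Kbar, A.LiesOverPrime 2 →
    ∀ σ ∈ A.inertiaSubgroupIn ℚ, ∀ x : V P, σ • (σ • x - x) = σ • x - x

/-- Deliverable (L2b): no nonzero `Gam`-fixed point in `E[p]` (no rational point of order `p`). -/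
def StL2b (P : FreyPackage) : Prop :=
  ∀ x : V P, (∀ σ : Gam, σ • x = x) → x = 0

/-- Deliverable (Lp): for a stable line `N`, inertia at `p` is trivial on `N` (for all `A`), or
trivial on `E[p]/N` (for all `A`). -/
def StLp (P : FreyPackage) : Prop :=
  ∀ N : Submodule (ZMod P.p) (V P), IsGaloisStable ℚ N → N ≠ ⊥ → N ≠ ⊤ →
    (∀ A : ValuationSubring Kbar, A.LiesOverPrime P.p →
        ∀ σ ∈ A.inertiaSubgroupIn ℚ, ∀ x ∈ N, σ • x = x) ∨
    (∀ A : ValuationSubring Kbar, A.LiesOverPrime P.p →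
        ∀ σ ∈ A.inertiaSubgroupIn ℚ, ∀ x : V P, σ • x - x ∈ N)

/-- Deliverable (Lp), local variant: the dichotomy for ONE valuation subring over `p`
(enough together with `StGex`). Optional. -/
def StLpLocal (P : FreyPackage) : Prop :=
  ∀ N : Submodule (ZMod P.p) (V P), IsGaloisStable ℚ N → N ≠ ⊥ → N ≠ ⊤ →
    ∃ A : ValuationSubring Kbar, A.LiesOverPrime P.p ∧
      ((∀ σ ∈ A.inertiaSubgroupIn ℚ, ∀ x ∈ N, σ • x = x) ∨
       (∀ σ ∈ A.inertiaSubgroupIn ℚ, ∀ x : V P, σ • x - x ∈ N))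

/-- Deliverable (E) = the landed S05: inertia at `q ∉ {2, p}` acts trivially on `E[p]`. -/
def StE (P : FreyPackage) : Prop :=
  ∀ q : ℕ, q.Prime → q ≠ 2 → q ≠ P.p → P.GaloisRepUnramifiedAt q

lemma stE_iff (P : FreyPackage) :
    StE P ↔ ∀ q : ℕ, q.Prime → q ≠ 2 → q ≠ P.p →
      ∀ A : ValuationSubring Kbar, A.LiesOverPrime q →
        ∀ σ ∈ A.inertiaSubgroupIn ℚ, ∀ x : V P, σ • x = x :=
  Iff.rfl

lemma stTweak_of_stT (P : FreyPackage) (h : StT P) : StTweak P := by
  have hp : 1 < P.p ^ 2 := Nat.one_lt_pow (by norm_num) P.pp.one_lt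
  have hfin : Finite (V P) := Nat.finite_of_card_ne_zero (by rw [h]; omega)
  refine ⟨?_, hfin, le_of_eq h⟩
  rw [← Finite.one_lt_card_iff_nontrivial, h]
  exact hp

/-- The hypothesis of S13, unfolded. -/
lemma hred_iff (P : FreyPackage) :
    (¬ GaloisRepIsIrreducible (K := AlgebraicClosure ℚ) ℚ P.freyCurve P.p) ↔
      ¬ (Nontrivial (V P) ∧
        ∀ N : Submodule (ZMod P.p) (V P), IsGaloisStable ℚ N → N = ⊥ ∨ N = ⊤) :=
  Iff.rfl

/-- The conclusion of S13, unfolded. -/
lemma goal_iff (P : FreyPackage) :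
    HasGaloisStableCofixedLine (K := AlgebraicClosure ℚ) ℚ P.freyCurve P.p ↔
      ∃ N : Submodule (ZMod P.p) (V P), IsGaloisStable ℚ N ∧ N ≠ ⊥ ∧ N ≠ ⊤ ∧
        ∀ σ : Gam, ∀ x : V P, σ • x - x ∈ N :=
  Iff.rfl

end Fermat.Agent.S13.Asm
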