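import Fermat.Agent.S13.Asm.H11_Wire
import Fermat.Agent.S13.W.H1_Tweak
import Fermat.Agent.S13.Lp.H25_Main
import Fermat.Agent.S13.L2.H21_L2aFinal

/-!
# S13: wiring of the landed packages, second stage

`result_of_stL2b` : S13 from the single open leaf `StL2b P` (no nonzero Galois-fixed point in
`E[p]`).  Packages W (`Wr.stTweak`), G (`G.h27_stGex`), Lp (`Lp.stLpA`), L2a (`L2.unipotent`) and
E (= S05) are wired in.
-/

set_option autoImplicit false
open WeierstrassCurve WeierstrassCurve.Affine WeierstrassCurve.Affine.Point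

namespace Fermat.Agent.S13.Asm

/-- **S13 from (L2b) alone.** -/
theorem result_of_stL2b (P : FreyPackage) (h2b : StL2b P)
    (hred : ¬ GaloisRepIsIrreducible (K := AlgebraicClosure ℚ) ℚ P.freyCurve P.p) :
    HasGaloisStableCofixedLine (K := AlgebraicClosure ℚ) ℚ P.freyCurve P.p :=
  result_of_deliverables_v2 P (Fermat.Agent.S13.Wr.stTweak P) Fermat.Agent.S13.G.h27_stGex
    (Fermat.Agent.S13.L2.unipotent P) h2b (Fermat.Agent.S13.Lp.stLpA P) (h11_stE P) hred

end Fermat.Agent.S13.Asm
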