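import Fermat.Agent.S13.Asm.H11_Interfaces

/-!
# S13 assembly, part 2: a finite level field through which the action on `V` factors
-/

set_option autoImplicit false
open WeierstrassCurve WeierstrassCurve.Affine WeierstrassCurve.Affine.Point

namespace Fermat.Agent.S13.Asm

variable {P : FreyPackage}

/-- The set of coordinates of an affine point (empty for the point at infinity). -/
def coords : (P.freyCurve⁄Kbar).Point → Set Kbar
  | .zero => ∅
  | .some x y _ => {x, y}

lemma coords_finite (Q : (P.freyCurve⁄Kbar).Point) : (coords Q).Finite := by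
  cases Q with
  | zero => exact Set.finite_empty
  | some x y h => exact (Set.finite_singleton y).insert x

lemma point_smul_eq_of_fix (σ : Gam) (Q : (P.freyCurve⁄Kbar).Point)
    (h : ∀ a ∈ coords Q, σ a = a) : σ • Q = Q := by
  cases Q with
  | zero => rfl
  | some x y hxy =>
    have hx : σ x = x := h x (by simp [coords])
    have hy : σ y = y := h y (by simp [coords])
    rw [algEquiv_smul_def, Point.map_some]
    have hx' : (σ.toAlgHom : Kbar →ₐ[ℚ] Kbar) x = x := hx
    have hy' : (σ.toAlgHom : Kbar →ₐ[ℚ] Kbar) y = y := hy
    simp only [hx', hy']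

/-- All coordinates of all points of `V P`. -/
def allCoords (P : FreyPackage) : Set Kbar := ⋃ x : V P, coords (x : (P.freyCurve⁄Kbar).Point)

lemma allCoords_finite (hfin : Finite (V P)) : (allCoords P).Finite :=
  Set.finite_iUnion fun _ => coords_finite _

/-- The field generated by the coordinates of the points of `V P`. -/
noncomputable def levelField (P : FreyPackage) : IntermediateField ℚ Kbar :=
  IntermediateField.adjoin ℚ (allCoords P)

lemma levelField_finiteDimensional (hfin : Finite (V P)) :
    FiniteDimensional ℚ (levelField P) := by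
  have hA : Algebra.IsAlgebraic ℚ Kbar := AlgebraicClosure.isAlgebraic ℚ
  have : Finite (allCoords P) := (allCoords_finite hfin).to_subtype
  exact IntermediateField.finiteDimensional_adjoin
    (fun x _ => (hA.isAlgebraic x).isIntegral)

lemma smul_eq_of_mem_fixingSubgroup (σ : Gam) (hσ : σ ∈ (levelField P).fixingSubgroup)
    (x : V P) : σ • x = x := by
  rw [IntermediateField.mem_fixingSubgroup_iff] at hσ
  apply Subtype.ext
  show σ • (x : (P.freyCurve⁄Kbar).Point) = x
  refine point_smul_eq_of_fix σ _ (fun a ha => hσ a ?_)
  exact IntermediateField.subset_adjoin ℚ _ (Set.mem_iUnion.mpr ⟨x, ha⟩)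

end Fermat.Agent.S13.Asm
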