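import Fermat.Agent.S13.Asm.H11_Interfaces

/-!
# S13 assembly, part 3: lines in a plane, unipotent operators
-/

set_option autoImplicit false
open WeierstrassCurve WeierstrassCurve.Affine WeierstrassCurve.Affine.Point

namespace Fermat.Agent.S13.Asm

section generic

variable {F W : Type*} [Field F] [AddCommGroup W] [Module F W] [FiniteDimensional F W]

lemma h11_finrank_eq_one_of_proper (h2 : Module.finrank F W ≤ 2) (N : Submodule F W)
    (h0 : N ≠ ⊥) (h1 : N ≠ ⊤) : Module.finrank F N = 1 := by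
  have hlt := Submodule.finrank_lt h1
  have hpos : 0 < Module.finrank F N :=
    Module.finrank_pos_iff.mpr (Submodule.nontrivial_iff_ne_bot.mpr h0)
  omega

lemma h11_eq_of_le_of_ne_bot (h2 : Module.finrank F W ≤ 2) (N : Submodule F W)
    (h0 : N ≠ ⊥) (h1 : N ≠ ⊤) (K : Submodule F W) (hK : K ≤ N) (hK0 : K ≠ ⊥) : K = N := by
  apply Submodule.eq_of_le_of_finrank_le hK
  rw [h11_finrank_eq_one_of_proper h2 N h0 h1]
  exact Nat.succ_le_of_lt
    (Module.finrank_pos_iff.mpr (Submodule.nontrivial_iff_ne_bot.mpr hK0))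

lemma h11_eq_or_eq_top_of_le (h2 : Module.finrank F W ≤ 2) (N : Submodule F W)
    (h0 : N ≠ ⊥) (h1 : N ≠ ⊤) (M : Submodule F W) (hM : N ≤ M) : M = N ∨ M = ⊤ := by
  by_cases hMt : M = ⊤
  · exact Or.inr hMt
  · left
    have hM0 : M ≠ ⊥ := fun h => h0 (by rw [h] at hM; exact (eq_bot_iff.mpr hM))
    have hfM := h11_finrank_eq_one_of_proper h2 M hM0 hMt
    have hfN := h11_finrank_eq_one_of_proper h2 N h0 h1
    exact (Submodule.eq_of_le_of_finrank_le hM (by rw [hfM, hfN])).symm

/-- A linear operator with square zero preserving a line `N` in a plane kills `N` and maps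
everything into `N`. -/
lemma h11_unipotent (h2 : Module.finrank F W ≤ 2) (N : Submodule F W)
    (h0 : N ≠ ⊥) (h1 : N ≠ ⊤) (f : W →ₗ[F] W) (hfN : ∀ x ∈ N, f x ∈ N)
    (hff : ∀ x, f (f x) = 0) : (∀ x ∈ N, f x = 0) ∧ (∀ x, f x ∈ N) := by
  -- step 1: `ker f ⊓ N = N`
  have hK : LinearMap.ker f ⊓ N = N := by
    apply h11_eq_of_le_of_ne_bot h2 N h0 h1 _ inf_le_right
    obtain ⟨n, hnN, hn0⟩ := Submodule.exists_mem_ne_zero_of_ne_bot h0
    intro hbot
    by_cases hfn : f n = 0
    · have : n ∈ LinearMap.ker f ⊓ N := ⟨LinearMap.mem_ker.mpr hfn, hnN⟩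
      rw [hbot] at this
      exact hn0 ((Submodule.mem_bot F).mp this)
    · have : f n ∈ LinearMap.ker f ⊓ N := ⟨LinearMap.mem_ker.mpr (hff n), hfN n hnN⟩
      rw [hbot] at this
      exact hfn ((Submodule.mem_bot F).mp this)
  have hN0 : ∀ x ∈ N, f x = 0 := fun x hx => by
    have : x ∈ LinearMap.ker f ⊓ N := by rw [hK]; exact hx
    exact LinearMap.mem_ker.mp this.1
  refine ⟨hN0, ?_⟩
  -- step 2: `comap f N` is `N` or `⊤`
  have hle : N ≤ Submodule.comap f N := fun x hx => by
    rw [Submodule.mem_comap, hN0 x hx]; exact N.zero_mem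
  rcases h11_eq_or_eq_top_of_le h2 N h0 h1 _ hle with h | h
  · exfalso
    apply h1
    rw [eq_top_iff]
    intro x _
    have h3 : f x ∈ Submodule.comap f N := by
      rw [Submodule.mem_comap, hff x]; exact N.zero_mem
    rw [h] at h3
    have h4 : x ∈ Submodule.comap f N := Submodule.mem_comap.mpr h3
    rw [h] at h4
    exact h4
  · intro x
    have : x ∈ Submodule.comap f N := by rw [h]; exact Submodule.mem_top
    exact Submodule.mem_comap.mp this

end generic

section frey

variable {P : FreyPackage}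

lemma h11_finrank_le_two (hT : StTweak P) :
    haveI : Fact P.p.Prime := ⟨P.pp⟩
    Module.finrank (ZMod P.p) (V P) ≤ 2 := by
  haveI : Fact P.p.Prime := ⟨P.pp⟩
  obtain ⟨_, hfin, hcard⟩ := hT
  haveI : Finite (V P) := hfin
  letI : Fintype (V P) := Fintype.ofFinite _
  have h1 : Fintype.card (V P) = Fintype.card (ZMod P.p) ^ Module.finrank (ZMod P.p) (V P) :=
    Module.card_eq_pow_finrank
  rw [ZMod.card] at h1
  rw [Nat.card_eq_fintype_card, h1] at hcard
  exact (Nat.pow_le_pow_iff_right P.pp.one_lt).mp hcard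

lemma h11_finiteDimensional (hT : StTweak P) :
    haveI : Fact P.p.Prime := ⟨P.pp⟩
    FiniteDimensional (ZMod P.p) (V P) := by
  haveI : Fact P.p.Prime := ⟨P.pp⟩
  haveI : Finite (V P) := hT.2.1
  exact Module.Finite.of_finite

/-- The operator `σ - 1` on `V P` as a `ZMod p`-linear map. -/
noncomputable def sigmaSubOne (σ : Gam) : V P →ₗ[ZMod P.p] V P :=
  AddMonoidHom.toZModLinearMap P.p
    ((DistribSMul.toAddMonoidHom (V P) σ) - AddMonoidHom.id (V P))

lemma sigmaSubOne_apply (σ : Gam) (x : V P) : sigmaSubOne σ x = σ • x - x := rfl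

/-- Unipotent + stable line `N` in the plane `V P` ⇒ trivial on `N` and on `V P / N`. -/
lemma h11_trivial_of_unipotent (hT : StTweak P) (N : Submodule (ZMod P.p) (V P))
    (hN : IsGaloisStable ℚ N) (h0 : N ≠ ⊥) (h1 : N ≠ ⊤) (σ : Gam)
    (hσ : ∀ x : V P, σ • (σ • x - x) = σ • x - x) :
    (∀ x ∈ N, σ • x = x) ∧ (∀ x : V P, σ • x - x ∈ N) := by
  haveI : Fact P.p.Prime := ⟨P.pp⟩
  haveI := h11_finiteDimensional hT
  have key := h11_unipotent (h11_finrank_le_two hT) N h0 h1 (sigmaSubOne σ)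
    (fun x hx => by
      rw [sigmaSubOne_apply]
      exact N.sub_mem (hN σ x hx) hx)
    (fun x => by
      rw [sigmaSubOne_apply, sigmaSubOne_apply, hσ x, sub_self])
  refine ⟨fun x hx => ?_, fun x => ?_⟩
  · have := key.1 x hx
    rw [sigmaSubOne_apply] at this
    exact sub_eq_zero.mp this
  · have := key.2 x
    rw [sigmaSubOne_apply] at this
    exact this

end frey

end Fermat.Agent.S13.Asm
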