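import Fermat.Agent.S13.Asm.H11_Interfaces

/-!
# S13 assembly, part 1: the two normal subgroups attached to a stable submodule
-/

set_option autoImplicit false
open WeierstrassCurve WeierstrassCurve.Affine WeierstrassCurve.Affine.Point

namespace Fermat.Agent.S13.Asm

variable {P : FreyPackage}

/-- `H1 N`: the elements of `Gam` fixing `N` pointwise. -/
def H1 (N : Submodule (ZMod P.p) (V P)) : Subgroup Gam where
  carrier := {σ | ∀ x ∈ N, σ • x = x}
  one_mem' := fun x _ => one_smul _ x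
  mul_mem' := fun {σ τ} hσ hτ x hx => by
    show (σ * τ) • x = x
    rw [mul_smul, hτ x hx, hσ x hx]
  inv_mem' := fun {σ} hσ x hx => by
    show σ⁻¹ • x = x
    have h := hσ x hx
    calc σ⁻¹ • x = σ⁻¹ • (σ • x) := by rw [h]
      _ = x := inv_smul_smul σ x

lemma mem_H1 (N : Submodule (ZMod P.p) (V P)) (σ : Gam) :
    σ ∈ H1 N ↔ ∀ x ∈ N, σ • x = x := Iff.rfl

/-- `H2 N`: the elements of `Gam` acting trivially on `V / N` (`N` stable). -/
def H2 (N : Submodule (ZMod P.p) (V P)) (hN : IsGaloisStable ℚ N) : Subgroup Gam where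
  carrier := {σ | ∀ x : V P, σ • x - x ∈ N}
  one_mem' := fun x => by
    show (1 : Gam) • x - x ∈ N
    rw [one_smul, sub_self]; exact N.zero_mem
  mul_mem' := fun {σ τ} hσ hτ x => by
    show (σ * τ) • x - x ∈ N
    have h1 : σ • (τ • x - x) ∈ N := hN σ _ (hτ x)
    have h2 : σ • x - x ∈ N := hσ x
    have : (σ * τ) • x - x = σ • (τ • x - x) + (σ • x - x) := by
      rw [mul_smul, smul_sub]; abel
    rw [this]; exact N.add_mem h1 h2
  inv_mem' := fun {σ} hσ x => by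
    show σ⁻¹ • x - x ∈ N
    have h1 : σ⁻¹ • (σ • x - x) ∈ N := hN σ⁻¹ _ (hσ x)
    have : σ⁻¹ • x - x = -(σ⁻¹ • (σ • x - x)) := by
      rw [smul_sub, inv_smul_smul]; abel
    rw [this]; exact N.neg_mem h1

lemma mem_H2 (N : Submodule (ZMod P.p) (V P)) (hN : IsGaloisStable ℚ N) (σ : Gam) :
    σ ∈ H2 N hN ↔ ∀ x : V P, σ • x - x ∈ N := Iff.rfl

lemma H1_normal (N : Submodule (ZMod P.p) (V P)) (hN : IsGaloisStable ℚ N) :
    (H1 N).Normal := by
  refine ⟨fun σ hσ τ x hx => ?_⟩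
  show (τ * σ * τ⁻¹) • x = x
  have h1 : τ⁻¹ • x ∈ N := hN τ⁻¹ x hx
  rw [mul_smul, mul_smul, hσ _ h1, smul_inv_smul]

lemma H2_normal (N : Submodule (ZMod P.p) (V P)) (hN : IsGaloisStable ℚ N) :
    (H2 N hN).Normal := by
  refine ⟨fun σ hσ τ x => ?_⟩
  show (τ * σ * τ⁻¹) • x - x ∈ N
  have h1 : τ • (σ • (τ⁻¹ • x) - τ⁻¹ • x) ∈ N := hN τ _ (hσ (τ⁻¹ • x))
  have : (τ * σ * τ⁻¹) • x - x = τ • (σ • (τ⁻¹ • x) - τ⁻¹ • x) := by
    rw [mul_smul, mul_smul, smul_sub, smul_inv_smul]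
  rw [this]; exact h1

/-- An element acting trivially on `V` lies in `H1 N` and in `H2 N`. -/
lemma mem_H1_of_trivial (N : Submodule (ZMod P.p) (V P)) (σ : Gam)
    (h : ∀ x : V P, σ • x = x) : σ ∈ H1 N := fun x _ => h x

lemma mem_H2_of_trivial (N : Submodule (ZMod P.p) (V P)) (hN : IsGaloisStable ℚ N) (σ : Gam)
    (h : ∀ x : V P, σ • x = x) : σ ∈ H2 N hN := fun x => by
  show σ • x - x ∈ N
  rw [h x, sub_self]; exact N.zero_mem

end Fermat.Agent.S13.Asm
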