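import Fermat.Agent.S13.Asm.H11_Interfaces
import Fermat.Agent.S13.Asm.H11_Subgroups
import Fermat.Agent.S13.Asm.H11_Level
import Fermat.Agent.S13.Asm.H11_Lines

/-!
# S13 assembly: the statement from the five deliverables
-/

set_option autoImplicit false
open WeierstrassCurve WeierstrassCurve.Affine WeierstrassCurve.Affine.Point

namespace Fermat.Agent.S13.Asm

variable {P : FreyPackage}

/-- Inertia at every prime `q ≠ p` lies in `H1 N ⊓ H2 N`. -/
lemma h11_inertia_le_away (hT : StTweak P) (h2a : StL2a P) (hE : StE P)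
    (N : Submodule (ZMod P.p) (V P)) (hN : IsGaloisStable ℚ N) (h0 : N ≠ ⊥) (h1 : N ≠ ⊤)
    (q : ℕ) (hq : q.Prime) (hqp : q ≠ P.p) (A : ValuationSubring Kbar)
    (hA : A.LiesOverPrime q) (σ : Gam) (hσ : σ ∈ A.inertiaSubgroupIn ℚ) :
    σ ∈ H1 N ∧ σ ∈ H2 N hN := by
  by_cases hq2 : q = 2
  · subst hq2
    exact h11_trivial_of_unipotent hT N hN h0 h1 σ (h2a A hA σ hσ)
  · have h := hE q hq hq2 hqp A hA σ hσ
    exact ⟨mem_H1_of_trivial N σ h, mem_H2_of_trivial N hN σ h⟩

/-- **S13 from the five deliverables.** -/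
theorem result_of_deliverables (P : FreyPackage) (hT : StTweak P) (hG : StG)
    (h2a : StL2a P) (h2b : StL2b P) (hp : StLp P) (hE : StE P)
    (hred : ¬ GaloisRepIsIrreducible (K := AlgebraicClosure ℚ) ℚ P.freyCurve P.p) :
    HasGaloisStableCofixedLine (K := AlgebraicClosure ℚ) ℚ P.freyCurve P.p := by
  rw [hred_iff] at hred
  rw [goal_iff]
  -- a stable proper nonzero submodule
  have hex : ∃ N : Submodule (ZMod P.p) (V P), IsGaloisStable ℚ N ∧ N ≠ ⊥ ∧ N ≠ ⊤ := by
    by_contra hcon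
    apply hred
    refine ⟨hT.1, fun N hN => ?_⟩
    by_contra h
    rw [not_or] at h
    exact hcon ⟨N, hN, h.1, h.2⟩
  obtain ⟨N, hN, h0, h1⟩ := hex
  have hfd : FiniteDimensional ℚ (levelField P) := levelField_finiteDimensional hT.2.1
  have hL1 : (levelField P).fixingSubgroup ≤ H1 N := fun σ hσ =>
    mem_H1_of_trivial N σ (smul_eq_of_mem_fixingSubgroup σ hσ)
  have hL2 : (levelField P).fixingSubgroup ≤ H2 N hN := fun σ hσ =>
    mem_H2_of_trivial N hN σ (smul_eq_of_mem_fixingSubgroup σ hσ)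
  rcases hp N hN h0 h1 with hp1 | hp2
  · -- inertia at `p` fixes `N` pointwise: `H1 = ⊤`, contradiction with (L2b)
    exfalso
    have htop : H1 N = ⊤ := by
      refine hG (H1 N) (H1_normal N hN) (levelField P) hfd hL1 ?_
      intro q hq A hA σ hσ
      by_cases hqp : q = P.p
      · subst hqp
        exact hp1 A hA σ hσ
      · exact (h11_inertia_le_away hT h2a hE N hN h0 h1 q hq hqp A hA σ hσ).1
    obtain ⟨n, hnN, hn0⟩ := Submodule.exists_mem_ne_zero_of_ne_bot h0
    refine hn0 (h2b n (fun σ => ?_))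
    have : σ ∈ H1 N := by rw [htop]; exact Subgroup.mem_top σ
    exact this n hnN
  · -- inertia at `p` is trivial on `V / N`: `H2 = ⊤`, so `N` is a cofixed line
    have htop : H2 N hN = ⊤ := by
      refine hG (H2 N hN) (H2_normal N hN) (levelField P) hfd hL2 ?_
      intro q hq A hA σ hσ
      by_cases hqp : q = P.p
      · subst hqp
        exact hp2 A hA σ hσ
      · exact (h11_inertia_le_away hT h2a hE N hN h0 h1 q hq hqp A hA σ hσ).2
    refine ⟨N, hN, h0, h1, fun σ x => ?_⟩
    have : σ ∈ H2 N hN := by rw [htop]; exact Subgroup.mem_top σ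
    exact this x

end Fermat.Agent.S13.Asm
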