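import Fermat.Agent.S13.Asm.H11_AsmV2
import Fermat.Agent.S13.G.H27_Main
import Fermat.Agent.S13.Lp.H25_Final
import Fermat.Agent.S05.H20_Final

/-!
# S13: wiring of the landed packages

`result_of_open_leaves` : S13 from the leaves that are still open
(package W: `StTweak P` and `Lp.PsiData P`; package Lp: `Lp.StC3 P`;
package L2: `StL2a P`, `StL2b P`).  Packages G, E (= S05), Lp1, trichotomy and transport are
already wired in.
-/

set_option autoImplicit false
open WeierstrassCurve WeierstrassCurve.Affine WeierstrassCurve.Affine.Point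

namespace Fermat.Agent.S13.Asm

/-- Deliverable (E) from the landed S05. -/
theorem h11_stE (P : FreyPackage) : StE P :=
  fun _ hq hq2 hqp => Fermat.Agent.S05.H20F.frey_unramified P hq hq2 hqp

/-- **S13 from the open leaves** (everything else is on main). -/
theorem result_of_open_leaves (P : FreyPackage) (hT : StTweak P)
    (hΨ : Fermat.Agent.S13.Lp.PsiData P) (h3 : Fermat.Agent.S13.Lp.StC3 P)
    (h2a : StL2a P) (h2b : StL2b P)
    (hred : ¬ GaloisRepIsIrreducible (K := AlgebraicClosure ℚ) ℚ P.freyCurve P.p) :
    HasGaloisStableCofixedLine (K := AlgebraicClosure ℚ) ℚ P.freyCurve P.p :=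
  result_of_deliverables_v2 P hT Fermat.Agent.S13.G.h27_stGex h2a h2b
    (Fermat.Agent.S13.Lp.stLpA_of_psiData_of_stC3 P hΨ h3) (h11_stE P) hred

end Fermat.Agent.S13.Asm
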